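import Fermat.Agent.S53.Limit.Quot

/-!
# S53 helper (Limit): elements and matrices of a complete local ring as compatible families
-/

set_option autoImplicit false

namespace Fermat.Agent.S53.Limit

open IsLocalRing

variable (A : Type) [CommRing A] [IsLocalRing A]

theorem truncMk_eq_iff (n : ℕ) (a b : A) :
    truncMk A n a = truncMk A n b ↔ a - b ∈ maximalIdeal A ^ (n + 1) :=
  Ideal.Quotient.eq

theorem eq_of_forall_truncMk_eq [IsHausdorff (maximalIdeal A) A] {a b : A}
    (h : ∀ n, truncMk A n a = truncMk A n b) : a = b := by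
  rw [← sub_eq_zero]
  apply IsHausdorff.haus (inferInstance : IsHausdorff (maximalIdeal A) A)
  intro n
  rw [SModEq.zero, smul_eq_mul, Ideal.mul_top]
  have := (truncMk_eq_iff A n a b).mp (h n)
  exact Ideal.pow_le_pow_right (Nat.le_succ n) this

variable {A} in
theorem truncFactor_of_compatible (x : ∀ n, Trunc A n)
    (hx : ∀ n, truncFactor A (Nat.le_succ n) (x (n + 1)) = x n) {k n : ℕ} (h : k ≤ n) :
    truncFactor A h (x n) = x k := by
  induction n, h using Nat.le_induction with
  | base =>
    obtain ⟨a, ha⟩ := truncMk_surjective A k (x k)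
    rw [← ha]; rfl
  | succ n hkn ih =>
    rw [← ih, ← hx n]
    obtain ⟨a, ha⟩ := truncMk_surjective A (n + 1) (x (n + 1))
    rw [← ha]; rfl

theorem exists_truncMk_eq_of_compatible [IsPrecomplete (maximalIdeal A) A] (x : ∀ n, Trunc A n)
    (hx : ∀ n, truncFactor A (Nat.le_succ n) (x (n + 1)) = x n) :
    ∃ a : A, ∀ n, truncMk A n a = x n := by
  choose y hy using fun n => truncMk_surjective A n (x n)
  have hcompat : ∀ {k n : ℕ}, k ≤ n → y k - y n ∈ maximalIdeal A ^ (k + 1) := by
    intro k n h
    rw [← truncMk_eq_iff, hy k, ← truncFactor_of_compatible x hx h, ← hy n]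
    rfl
  obtain ⟨L, hL⟩ := IsPrecomplete.prec (inferInstance : IsPrecomplete (maximalIdeal A) A)
    (f := y) (fun {k n} h => by
      rw [SModEq.sub_mem, smul_eq_mul, Ideal.mul_top]
      exact Ideal.pow_le_pow_right (Nat.le_succ k) (hcompat h))
  refine ⟨L, fun n => ?_⟩
  rw [← hy n, truncMk_eq_iff]
  have h1 := hL (n + 1)
  rw [SModEq.sub_mem, smul_eq_mul, Ideal.mul_top] at h1
  have h2 := hcompat (Nat.le_succ n)
  have : L - y n = -(y (n + 1) - L) - (y n - y (n + 1)) := by ring
  rw [this]
  exact Ideal.sub_mem _ (Ideal.neg_mem_iff _ |>.mpr h1) h2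

section matrix

variable {ι : Type}

theorem matrix_eq_of_forall_map_truncMk_eq [IsHausdorff (maximalIdeal A) A]
    {M N : Matrix ι ι A} (h : ∀ n, M.map (truncMk A n) = N.map (truncMk A n)) : M = N := by
  ext i j
  apply eq_of_forall_truncMk_eq A
  intro n
  have := congrFun (congrFun (h n) i) j
  simpa using this

theorem exists_matrix_map_truncMk_eq [IsPrecomplete (maximalIdeal A) A]
    (T : ∀ n, Matrix ι ι (Trunc A n))
    (hT : ∀ n, (T (n + 1)).map (truncFactor A (Nat.le_succ n)) = T n) :
    ∃ M : Matrix ι ι A, ∀ n, M.map (truncMk A n) = T n := by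
  have : ∀ i j, ∃ a : A, ∀ n, truncMk A n a = T n i j := by
    intro i j
    apply exists_truncMk_eq_of_compatible A (fun n => T n i j)
    intro n
    have := congrFun (congrFun (hT n) i) j
    simpa using this
  choose M hM using this
  refine ⟨Matrix.of M, fun n => ?_⟩
  ext i j
  simp [hM i j n]

end matrix

end Fermat.Agent.S53.Limit
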