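import Mathlib.CategoryTheory.CofilteredSystem
import Mathlib.CategoryTheory.Functor.OfSequence

/-!
# S53 helper (Limit): König's lemma for a sequence of nonempty finite types
-/

set_option autoImplicit false

namespace Fermat.Agent.S53.Limit

open CategoryTheory

/-- König's lemma for a sequence of nonempty finite types. -/
theorem exists_compatible_seq_of_finite (S : ℕ → Type) [∀ n, Finite (S n)] [∀ n, Nonempty (S n)]
    (π : ∀ n, S (n + 1) → S n) : ∃ x : ∀ n, S n, ∀ n, π n (x (n + 1)) = x n := by
  let F : ℕᵒᵖ ⥤ Type := Functor.ofOpSequence (X := S) (fun n => TypeCat.ofHom (π n))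
  have : ∀ j : ℕᵒᵖ, Finite (F.obj j) := fun j => inferInstanceAs (Finite (S j.unop))
  have : ∀ j : ℕᵒᵖ, Nonempty (F.obj j) := fun j => inferInstanceAs (Nonempty (S j.unop))
  obtain ⟨s, hs⟩ := nonempty_sections_of_finite_inverse_system F
  refine ⟨fun n => s (Opposite.op n), fun n => ?_⟩
  have := hs (homOfLE (Nat.le_add_right n 1)).op
  simp only [F, Functor.ofOpSequence_map_homOfLE_succ] at this
  exact this

end Fermat.Agent.S53.Limit
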