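import Fermat.Agent.S53.Limit.Mat
import Fermat.Agent.S53.Limit.Complete
import Fermat.Agent.S53.Limit.Konig

/-!
# S53 helper (Limit): representations over a complete Noetherian local ring with finite residue
field which are equivalent modulo every power of the maximal ideal are equivalent.
-/

set_option autoImplicit false

open scoped TensorProduct

namespace Fermat.Agent.S53.Limit

open Module IsLocalRing Fermat.Agent.S53

variable {A : Type} [CommRing A] [IsLocalRing A]

/-- The set of matrices over `A ⧸ m^(n+1)` intertwining the reductions of two families of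
matrices. -/
def IntertwinerSet (M₁ M₂ : GQ → Matrix (Fin 2) (Fin 2) A) (n : ℕ) : Type :=
  {T : Matrix (Fin 2) (Fin 2) (Trunc A n) // IsUnit T.det ∧
    ∀ σ : GQ, T * (M₁ σ).map (truncMk A n) = (M₂ σ).map (truncMk A n) * T}

instance instFiniteIntertwinerSet [IsNoetherianRing A] [Finite (ResidueField A)]
    (M₁ M₂ : GQ → Matrix (Fin 2) (Fin 2) A) (n : ℕ) : Finite (IntertwinerSet M₁ M₂ n) := by
  haveI : Finite (Trunc A n) := finite_trunc A n
  unfold IntertwinerSet
  infer_instance

theorem map_truncFactor_map_truncMk (M : Matrix (Fin 2) (Fin 2) A) {k n : ℕ} (h : k ≤ n) :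
    (M.map (truncMk A n)).map (truncFactor A h) = M.map (truncMk A k) := by
  ext i j; rfl

/-- Transition maps between the intertwiner sets. -/
def IntertwinerSet.down (M₁ M₂ : GQ → Matrix (Fin 2) (Fin 2) A) (n : ℕ)
    (T : IntertwinerSet M₁ M₂ (n + 1)) : IntertwinerSet M₁ M₂ n :=
  ⟨T.1.map (truncFactor A (Nat.le_succ n)), by
    refine ⟨?_, fun σ => ?_⟩
    · have := (T.2.1).map (truncFactor A (Nat.le_succ n))
      rwa [RingHom.map_det, RingHom.mapMatrix_apply] at this
    · have := congrArg (fun X => X.map (truncFactor A (Nat.le_succ n))) (T.2.2 σ)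
      simp only [Matrix.map_mul, map_truncFactor_map_truncMk] at this
      exact this⟩

theorem isEquiv_of_forall_trunc [IsNoetherianRing A] [IsAdicComplete (maximalIdeal A) A]
    [Finite (ResidueField A)] (ρ₁ ρ₂ : GaloisRepAdic A)
    (h : ∀ n : ℕ, (ρ₁.baseChangeAlong (truncMk A n) (isLocalHom_truncMk A n)).IsEquiv
      (ρ₂.baseChangeAlong (truncMk A n) (isLocalHom_truncMk A n))) :
    ρ₁.IsEquiv ρ₂ := by
  set b₁ := stdBasis ρ₁
  set b₂ := stdBasis ρ₂
  set M₁ := matOf ρ₁ b₁
  set M₂ := matOf ρ₂ b₂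
  rw [isEquiv_iff_matrix ρ₁ ρ₂ b₁ b₂]
  haveI : ∀ n, Nonempty (IntertwinerSet M₁ M₂ n) := by
    intro n
    obtain ⟨T, hT, hcomm⟩ := (isEquiv_iff_matrix _ _
      (bcBasis (truncMk A n) (isLocalHom_truncMk A n) ρ₁ b₁)
      (bcBasis (truncMk A n) (isLocalHom_truncMk A n) ρ₂ b₂)).mp (h n)
    refine ⟨⟨T, hT, fun σ => ?_⟩⟩
    have := hcomm σ
    rwa [matOf_baseChangeAlong, matOf_baseChangeAlong] at this
  obtain ⟨T, hT⟩ := exists_compatible_seq_of_finite (IntertwinerSet M₁ M₂)
    (IntertwinerSet.down M₁ M₂)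
  obtain ⟨T', hT'⟩ := exists_matrix_map_truncMk_eq A (fun n => (T n).1)
    (fun n => congrArg Subtype.val (hT n))
  refine ⟨T', ?_, fun σ => ?_⟩
  · have h0 : IsUnit ((truncMk A 0) T'.det) := by
      have := (T 0).2.1
      rwa [← hT' 0, ← RingHom.mapMatrix_apply, ← RingHom.map_det] at this
    exact (isLocalHom_truncMk A 0).map_nonunit _ h0
  · apply matrix_eq_of_forall_map_truncMk_eq A
    intro n
    rw [Matrix.map_mul, Matrix.map_mul, hT' n]
    exact (T n).2.2 σ

end Fermat.Agent.S53.Limit
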