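import Fermat.Agent.S53.Limit.EquivLimit

/-!
# S53 helper (Limit): from Artinian universality to complete Noetherian universality

`universal_of_artinian`: if `(R, ρ)` satisfies the universal property of
`GaloisRep.DeformationRingData.universal` for all *Artinian* local `𝒪`-algebras, then it
satisfies it for all complete Noetherian local `𝒪`-algebras.
-/

set_option autoImplicit false

open scoped TensorProduct

namespace Fermat.Agent.S53.Limit

open Module IsLocalRing Fermat.Agent.S53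

section

variable (𝒪 : Type) [CommRing 𝒪] [IsLocalRing 𝒪]
variable (ρbar : ResidualGaloisRep (ResidueField 𝒪))
variable (𝒟 : ∀ ⦃A : Type⦄ [CommRing A] [IsLocalRing A] [Algebra 𝒪 A], GaloisRepAdic A → Prop)

/-- The residual condition is inherited by truncations. -/
theorem residual_isEquiv_trunc (A : Type) [CommRing A] [IsLocalRing A] [Algebra 𝒪 A]
    [hloc : IsLocalHom (algebraMap 𝒪 A)] (ρA : GaloisRepAdic A)
    (hres : ρA.residual.IsEquiv
      (ρbar.baseChangeAlong (IsLocalRing.ResidueField.map (algebraMap 𝒪 A)))) (n : ℕ)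
    (hloc' : IsLocalHom (algebraMap 𝒪 (Trunc A n))) :
    (ρA.baseChangeAlong (truncMk A n) (isLocalHom_truncMk A n)).residual.IsEquiv
      (ρbar.baseChangeAlong
        (@IsLocalRing.ResidueField.map 𝒪 (Trunc A n) _ _ _ _ (algebraMap 𝒪 (Trunc A n)) hloc')) := by
  have hmk := isLocalHom_truncMk A n
  have h1 := isEquiv_residual_baseChangeAlong (truncMk A n) hmk ρA
  have h2 := res_isEquiv_baseChangeAlong
    (@IsLocalRing.ResidueField.map A (Trunc A n) _ _ _ _ (truncMk A n) hmk) hres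
  have h3 := res_isEquiv_baseChangeAlong_of_comp_eq
    (IsLocalRing.ResidueField.map (algebraMap 𝒪 A))
    (@IsLocalRing.ResidueField.map A (Trunc A n) _ _ _ _ (truncMk A n) hmk)
    (@IsLocalRing.ResidueField.map 𝒪 (Trunc A n) _ _ _ _ (algebraMap 𝒪 (Trunc A n)) hloc')
    (by
      apply Ideal.Quotient.ringHom_ext
      ext x
      rfl) ρbar
  exact res_isEquiv_trans h1 (res_isEquiv_trans h2 h3)


/-- The deformation condition is inherited by truncations. -/
theorem isOfType_trunc (h𝒟 : GaloisRep.IsDeformationCondition 𝒪 𝒟)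
    (A : Type) [CommRing A] [IsLocalRing A] [IsNoetherianRing A]
    [IsAdicComplete (maximalIdeal A) A] [Algebra 𝒪 A] [hloc : IsLocalHom (algebraMap 𝒪 A)]
    (hsurj : Function.Surjective (IsLocalRing.residue A ∘ algebraMap 𝒪 A))
    (ρA : GaloisRepAdic A) (hD : 𝒟 ρA) (n : ℕ) :
    𝒟 (ρA.baseChangeAlong (truncMk A n) (isLocalHom_truncMk A n)) :=
  (h𝒟.iff_forall_surjective hloc hsurj ρA).mp hD
    (isArtinianTestAlgebra_trunc 𝒪 A hloc hsurj n) (truncMkₐ 𝒪 A n) (isLocalHom_truncMk A n)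
    (truncMk_surjective A n)

/-- A representation over a complete Noetherian local ring is of type `𝒟` as soon as all its
truncations are. -/
theorem isOfType_of_forall_trunc (h𝒟 : GaloisRep.IsDeformationCondition 𝒪 𝒟)
    (A : Type) [CommRing A] [IsLocalRing A] [IsNoetherianRing A]
    [IsAdicComplete (maximalIdeal A) A] [Algebra 𝒪 A] [hloc : IsLocalHom (algebraMap 𝒪 A)]
    (hsurj : Function.Surjective (IsLocalRing.residue A ∘ algebraMap 𝒪 A))
    (ρA : GaloisRepAdic A)
    (hD : ∀ n : ℕ, 𝒟 (ρA.baseChangeAlong (truncMk A n) (isLocalHom_truncMk A n))) :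
    𝒟 ρA := by
  rw [h𝒟.iff_forall_surjective hloc hsurj ρA]
  intro B _ _ _ hB q hq hqsurj
  haveI := hB.isArtinian
  obtain ⟨n, hn⟩ := exists_pow_le_ker_of_isArtinianRing A (q : A →+* B) hq
  -- `q` factors through the truncation
  let q' : Trunc A n →ₐ[𝒪] B := Ideal.Quotient.liftₐ _ q (fun a ha => hn ha)
  have hq'comp : (q' : Trunc A n →+* B).comp (truncMk A n) = (q : A →+* B) := by
    ext x; rfl
  have hq'loc : IsLocalHom (q' : Trunc A n →+* B) := by
    refine ⟨fun x hx => ?_⟩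
    obtain ⟨a, rfl⟩ := truncMk_surjective A n x
    have : IsUnit ((q : A →+* B) a) := hx
    exact (hq.map_nonunit a this).map (truncMk A n)
  have h1 := h𝒟.baseChangeAlong (isArtinianTestAlgebra_trunc 𝒪 A hloc hsurj n) hB q' hq'loc (hD n)
  exact h𝒟.of_isEquiv hB
    (isEquiv_baseChangeAlong_of_comp_eq (truncMk A n) (isLocalHom_truncMk A n)
      (q' : Trunc A n →+* B) hq'loc (q : A →+* B) hq hq'comp ρA) h1


/-- Over a complete Noetherian local `𝒪`-algebra, the deformation condition is invariant under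
equivalence. -/
theorem isOfType_of_isEquiv (h𝒟 : GaloisRep.IsDeformationCondition 𝒪 𝒟)
    (A : Type) [CommRing A] [IsLocalRing A] [IsNoetherianRing A]
    [IsAdicComplete (maximalIdeal A) A] [Algebra 𝒪 A] [hloc : IsLocalHom (algebraMap 𝒪 A)]
    (hsurj : Function.Surjective (IsLocalRing.residue A ∘ algebraMap 𝒪 A))
    {ρ₁ ρ₂ : GaloisRepAdic A} (h : ρ₁.IsEquiv ρ₂) (hD : 𝒟 ρ₁) : 𝒟 ρ₂ :=
  isOfType_of_forall_trunc 𝒪 𝒟 h𝒟 A hsurj ρ₂ fun n =>
    h𝒟.of_isEquiv (isArtinianTestAlgebra_trunc 𝒪 A hloc hsurj n)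
      (isEquiv_baseChangeAlong (truncMk A n) (isLocalHom_truncMk A n) h)
      (isOfType_trunc 𝒪 𝒟 h𝒟 A hsurj ρ₁ hD n)

/-- **Artinian universality implies complete Noetherian universality.** -/
theorem universal_of_artinian [Finite (ResidueField 𝒪)]
    (h𝒟 : GaloisRep.IsDeformationCondition 𝒪 𝒟)
    (R : Type) [CommRing R] [IsLocalRing R] [Algebra 𝒪 R] (ρ : GaloisRepAdic R)
    (hart : ∀ (A : Type) [CommRing A] [IsLocalRing A] [IsArtinianRing A] [Algebra 𝒪 A]
      [IsLocalHom (algebraMap 𝒪 A)],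
      Function.Surjective (IsLocalRing.residue A ∘ algebraMap 𝒪 A) →
      ∀ ρA : GaloisRepAdic A, 𝒟 ρA →
        ρA.residual.IsEquiv
          (ρbar.baseChangeAlong (IsLocalRing.ResidueField.map (algebraMap 𝒪 A))) →
        ∃! φ : R →ₐ[𝒪] A, ∃ hφ : IsLocalHom (φ : R →+* A),
          (ρ.baseChangeAlong (φ : R →+* A) hφ).IsEquiv ρA)
    (A : Type) [CommRing A] [IsLocalRing A] [IsNoetherianRing A]
    [IsAdicComplete (maximalIdeal A) A] [Algebra 𝒪 A] [hloc : IsLocalHom (algebraMap 𝒪 A)]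
    (hsurj : Function.Surjective (IsLocalRing.residue A ∘ algebraMap 𝒪 A))
    (ρA : GaloisRepAdic A) (hD : 𝒟 ρA)
    (hres : ρA.residual.IsEquiv
      (ρbar.baseChangeAlong (IsLocalRing.ResidueField.map (algebraMap 𝒪 A)))) :
    ∃! φ : R →ₐ[𝒪] A, ∃ hφ : IsLocalHom (φ : R →+* A),
      (ρ.baseChangeAlong (φ : R →+* A) hφ).IsEquiv ρA := by
  haveI : Finite (ResidueField A) := finite_residueField_of_surjective 𝒪 A hloc hsurj
  have hmk := isLocalHom_truncMk A
  -- the truncated data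
  have hArt : ∀ n, IsArtinianRing (Trunc A n) := isArtinianRing_trunc A
  have hlocn : ∀ n, IsLocalHom (algebraMap 𝒪 (Trunc A n)) := isLocalHom_algebraMap_trunc 𝒪 A hloc
  have hsurjn := residue_surjective_trunc 𝒪 A hsurj
  have hDn := isOfType_trunc 𝒪 𝒟 h𝒟 A hsurj ρA hD
  have hresn : ∀ n, _ := fun n => residual_isEquiv_trunc 𝒪 ρbar A ρA hres n (hlocn n)
  have key : ∀ n, ∃! φ : R →ₐ[𝒪] Trunc A n, ∃ hφ : IsLocalHom (φ : R →+* Trunc A n),
      (ρ.baseChangeAlong (φ : R →+* Trunc A n) hφ).IsEquiv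
        (ρA.baseChangeAlong (truncMk A n) (hmk n)) := fun n =>
    @hart (Trunc A n) _ _ (hArt n) _ (hlocn n) (hsurjn n) _ (hDn n) (hresn n)
  choose φn hφn huniq using key
  choose hφloc hφeq using hφn
  -- compatibility of the `φn`
  have hcompat : ∀ {k n : ℕ} (h : k ≤ n), (truncFactorₐ 𝒪 A h).comp (φn n) = φn k := by
    intro k n h
    apply huniq k
    have hloc' : IsLocalHom (((truncFactorₐ 𝒪 A h).comp (φn n) : R →ₐ[𝒪] Trunc A k) :
        R →+* Trunc A k) :=
      isLocalHom_comp' (φn n : R →+* Trunc A n) (hφloc n) (truncFactor A h)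
        (isLocalHom_truncFactor A h)
    refine ⟨hloc', ?_⟩
    have h1 : (ρ.baseChangeAlong (((truncFactorₐ 𝒪 A h).comp (φn n) : R →ₐ[𝒪] Trunc A k) :
        R →+* Trunc A k) hloc').IsEquiv
        ((ρ.baseChangeAlong (φn n : R →+* Trunc A n) (hφloc n)).baseChangeAlong
          (truncFactor A h) (isLocalHom_truncFactor A h)) :=
      isEquiv_symm (isEquiv_baseChangeAlong_of_comp_eq _ _ _ _ _ hloc' rfl ρ)
    have h2 := isEquiv_baseChangeAlong (truncFactor A h) (isLocalHom_truncFactor A h) (hφeq n)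
    have h3 := isEquiv_baseChangeAlong_of_comp_eq (truncMk A n) (hmk n) (truncFactor A h)
      (isLocalHom_truncFactor A h) (truncMk A k) (hmk k) (truncFactor_comp_truncMk A h) ρA
    exact isEquiv_trans h1 (isEquiv_trans h2 h3)
  -- the limit homomorphism
  let f : (n : ℕ) → R →ₐ[𝒪] A ⧸ maximalIdeal A ^ n := fun n =>
    (Ideal.Quotient.factorₐ 𝒪 (Ideal.pow_le_pow_right (Nat.le_succ n))).comp (φn n)
  have hf : ∀ {m n : ℕ} (hle : m ≤ n),
      (Ideal.Quotient.factorₐ 𝒪 (Ideal.pow_le_pow_right hle)).comp (f n) = f m := by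
    intro m n hle
    ext x
    have hx := AlgHom.congr_fun (hcompat hle) x
    simp only [f, AlgHom.comp_apply] at hx ⊢
    rw [← hx]
    obtain ⟨a, ha⟩ := truncMk_surjective A n (φn n x)
    rw [← ha]
    rfl
  let φ : R →ₐ[𝒪] A := IsAdicComplete.liftAlgHom (maximalIdeal A) f hf
  have hφmk : ∀ n x, truncMk A n (φ x) = φn n x := by
    intro n x
    have h1 : Ideal.Quotient.mk (maximalIdeal A ^ (n + 1)) (φ x) = f (n + 1) x :=
      IsAdicComplete.mk_liftAlgHom (maximalIdeal A) f hf (n + 1) x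
    have hx := AlgHom.congr_fun (hcompat (Nat.le_succ n)) x
    rw [← hx]
    show Ideal.Quotient.mk (maximalIdeal A ^ (n + 1)) (φ x) = _
    rw [h1]
  have hφcomp : ∀ n, (truncMk A n).comp (φ : R →+* A) = (φn n : R →+* Trunc A n) := by
    intro n; ext x; exact hφmk n x
  have hφloc' : IsLocalHom (φ : R →+* A) := by
    refine ⟨fun x hx => ?_⟩
    have h0 : IsUnit ((φn 0 : R →+* Trunc A 0) x) := by
      have := hx.map (truncMk A 0)
      rwa [show truncMk A 0 ((φ : R →+* A) x) = φn 0 x from hφmk 0 x] at this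
    exact (hφloc 0).map_nonunit x h0
  refine ⟨φ, ⟨hφloc', ?_⟩, ?_⟩
  · -- equivalence, levelwise
    apply isEquiv_of_forall_trunc
    intro n
    exact isEquiv_trans
      (isEquiv_baseChangeAlong_of_comp_eq (φ : R →+* A) hφloc' (truncMk A n) (hmk n)
        (φn n : R →+* Trunc A n) (hφloc n) (hφcomp n) ρ) (hφeq n)
  · -- uniqueness
    rintro φ' ⟨hφ', heq'⟩
    have hlevel : ∀ n, (truncMkₐ 𝒪 A n).comp φ' = φn n := by
      intro n
      apply huniq n
      have hloc' : IsLocalHom (((truncMkₐ 𝒪 A n).comp φ' : R →ₐ[𝒪] Trunc A n) :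
          R →+* Trunc A n) :=
        isLocalHom_comp' (φ' : R →+* A) hφ' (truncMk A n) (hmk n)
      refine ⟨hloc', ?_⟩
      have h1 : (ρ.baseChangeAlong (((truncMkₐ 𝒪 A n).comp φ' : R →ₐ[𝒪] Trunc A n) :
          R →+* Trunc A n) hloc').IsEquiv
          ((ρ.baseChangeAlong (φ' : R →+* A) hφ').baseChangeAlong (truncMk A n) (hmk n)) :=
        isEquiv_symm (isEquiv_baseChangeAlong_of_comp_eq _ _ _ _ _ hloc' rfl ρ)
      exact isEquiv_trans h1 (isEquiv_baseChangeAlong (truncMk A n) (hmk n) heq')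
    ext x
    apply eq_of_forall_truncMk_eq A
    intro n
    rw [hφmk n x, ← hlevel n]
    rfl

end

end Fermat.Agent.S53.Limit
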