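import Fermat.Agent.S53.BaseChange

/-!
# S53 helper (Limit): matrices of a `GaloisRepAdic` in a basis
-/

set_option autoImplicit false

open scoped TensorProduct

namespace Fermat.Agent.S53.Limit

open Module

/-- The absolute Galois group of `ℚ` as used in the prelude. -/
abbrev GQ : Type := AlgebraicClosure ℚ ≃ₐ[ℚ] AlgebraicClosure ℚ

variable {A : Type} [CommRing A] [IsLocalRing A]

/-- A basis of the underlying module of a `GaloisRepAdic`. -/
noncomputable def stdBasis (ρ : GaloisRepAdic A) : Basis (Fin 2) A ρ.V :=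
  Module.finBasisOfFinrankEq A ρ.V ρ.finrank_eq

/-- The matrix of `ρ σ` in a basis. -/
noncomputable def matOf (ρ : GaloisRepAdic A) (b : Basis (Fin 2) A ρ.V) (σ : GQ) :
    Matrix (Fin 2) (Fin 2) A :=
  LinearMap.toMatrix b b (ρ.ρ σ)

theorem matOf_mul (ρ : GaloisRepAdic A) (b : Basis (Fin 2) A ρ.V) (σ τ : GQ) :
    matOf ρ b (σ * τ) = matOf ρ b σ * matOf ρ b τ := by
  unfold matOf
  rw [map_mul, Module.End.mul_eq_comp, LinearMap.toMatrix_comp b b b]

theorem matOf_one (ρ : GaloisRepAdic A) (b : Basis (Fin 2) A ρ.V) :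
    matOf ρ b 1 = 1 := by
  unfold matOf
  rw [map_one, Module.End.one_eq_id, LinearMap.toMatrix_id]

/-- Equivalence of representations in terms of matrices. -/
theorem isEquiv_iff_matrix (ρ₁ ρ₂ : GaloisRepAdic A) (b₁ : Basis (Fin 2) A ρ₁.V)
    (b₂ : Basis (Fin 2) A ρ₂.V) :
    ρ₁.IsEquiv ρ₂ ↔ ∃ T : Matrix (Fin 2) (Fin 2) A, IsUnit T.det ∧
      ∀ σ : GQ, T * matOf ρ₁ b₁ σ = matOf ρ₂ b₂ σ * T := by
  constructor
  · rintro ⟨e⟩
    refine ⟨LinearMap.toMatrix b₁ b₂ e.toLinearEquiv.toLinearMap,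
      LinearEquiv.isUnit_det e.toLinearEquiv b₁ b₂, fun σ => ?_⟩
    unfold matOf
    rw [← LinearMap.toMatrix_comp b₁ b₁ b₂, ← LinearMap.toMatrix_comp b₁ b₂ b₂]
    congr 1
    ext x
    exact e.map_apply σ x
  · rintro ⟨T, hT, hcomm⟩
    have hdet : IsUnit (LinearMap.toMatrix b₁ b₂ (Matrix.toLin b₁ b₂ T)).det := by
      rw [LinearMap.toMatrix_toLin]; exact hT
    refine ⟨{ toLinearEquiv := LinearEquiv.ofIsUnitDet hdet, map_apply := fun σ x => ?_ }⟩
    have h1 : (Matrix.toLin b₁ b₂ T) ∘ₗ (ρ₁.ρ σ) = (ρ₂.ρ σ) ∘ₗ (Matrix.toLin b₁ b₂ T) := by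
      apply (LinearMap.toMatrix b₁ b₂).injective
      rw [LinearMap.toMatrix_comp b₁ b₁ b₂, LinearMap.toMatrix_comp b₁ b₂ b₂,
        LinearMap.toMatrix_toLin]
      exact hcomm σ
    exact LinearMap.congr_fun h1 x

section baseChange

variable {B : Type} [CommRing B] [IsLocalRing B]

/-- The base-changed basis. -/
noncomputable def bcBasis (f : A →+* B) (hf : IsLocalHom f) (ρ : GaloisRepAdic A)
    (b : Basis (Fin 2) A ρ.V) : Basis (Fin 2) B (ρ.baseChangeAlong f hf).V :=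
  letI : Algebra A B := f.toAlgebra
  Algebra.TensorProduct.basis B b

theorem matOf_baseChangeAlong (f : A →+* B) (hf : IsLocalHom f) (ρ : GaloisRepAdic A)
    (b : Basis (Fin 2) A ρ.V) (σ : GQ) :
    matOf (ρ.baseChangeAlong f hf) (bcBasis f hf ρ b) σ = (matOf ρ b σ).map f := by
  letI : Algebra A B := f.toAlgebra
  exact LinearMap.toMatrix_baseChange B (ρ.ρ σ) b b

end baseChange

end Fermat.Agent.S53.Limit
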