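import Fermat.Statements.S53

/-!
# S53 helper: the truncations `A ⧸ m^(n+1)` of a local ring
-/

set_option autoImplicit false

namespace Fermat.Agent.S53.Limit

open IsLocalRing

section quot

variable (A : Type) [CommRing A] [IsLocalRing A]

/-- The truncation `A ⧸ m^(n+1)` of a local ring. -/
abbrev Trunc (n : ℕ) : Type := A ⧸ (maximalIdeal A) ^ (n + 1)

theorem maximalIdeal_pow_succ_ne_top (n : ℕ) : (maximalIdeal A) ^ (n + 1) ≠ ⊤ := by
  intro h
  have h1 : (maximalIdeal A) ^ (n + 1) ≤ maximalIdeal A := Ideal.pow_le_self (by omega)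
  rw [h] at h1
  exact (maximalIdeal.isMaximal A).ne_top (top_le_iff.mp h1)

instance instNontrivialTrunc (n : ℕ) : Nontrivial (Trunc A n) :=
  Ideal.Quotient.nontrivial_iff.mpr (maximalIdeal_pow_succ_ne_top A n)

instance instIsLocalRingTrunc (n : ℕ) : IsLocalRing (Trunc A n) :=
  IsLocalRing.of_surjective' (Ideal.Quotient.mk _) Ideal.Quotient.mk_surjective

/-- The projection `A → A ⧸ m^(n+1)`. -/
abbrev truncMk (n : ℕ) : A →+* Trunc A n := Ideal.Quotient.mk _

theorem truncMk_surjective (n : ℕ) : Function.Surjective (truncMk A n) :=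
  Ideal.Quotient.mk_surjective

theorem isLocalHom_truncMk (n : ℕ) : IsLocalHom (truncMk A n) :=
  IsLocalHom.of_surjective _ Ideal.Quotient.mk_surjective

/-- The transition map `A ⧸ m^(n+1) → A ⧸ m^(k+1)` for `k ≤ n`. -/
abbrev truncFactor {k n : ℕ} (h : k ≤ n) : Trunc A n →+* Trunc A k :=
  Ideal.Quotient.factor (Ideal.pow_le_pow_right (Nat.succ_le_succ h))

theorem truncFactor_surjective {k n : ℕ} (h : k ≤ n) : Function.Surjective (truncFactor A h) :=
  Ideal.Quotient.factor_surjective _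

theorem isLocalHom_truncFactor {k n : ℕ} (h : k ≤ n) : IsLocalHom (truncFactor A h) :=
  IsLocalHom.of_surjective _ (Ideal.Quotient.factor_surjective _)

theorem truncFactor_comp_truncMk {k n : ℕ} (h : k ≤ n) :
    (truncFactor A h).comp (truncMk A n) = truncMk A k := by
  ext x; rfl

theorem truncFactor_truncMk {k n : ℕ} (h : k ≤ n) (x : A) :
    truncFactor A h (truncMk A n x) = truncMk A k x := rfl

theorem truncFactor_comp_truncFactor {j k n : ℕ} (h : j ≤ k) (h' : k ≤ n) :
    (truncFactor A h).comp (truncFactor A h') = truncFactor A (h.trans h') := by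
  apply Ideal.Quotient.ringHom_ext
  ext x; rfl

theorem maximalIdeal_trunc (n : ℕ) :
    maximalIdeal (Trunc A n) = (maximalIdeal A).map (truncMk A n) :=
  (IsLocalRing.map_maximalIdeal_of_surjective (truncMk A n) (truncMk_surjective A n)).symm

theorem maximalIdeal_trunc_pow (n : ℕ) : maximalIdeal (Trunc A n) ^ (n + 1) = ⊥ := by
  rw [maximalIdeal_trunc, ← Ideal.map_pow, Ideal.map_quotient_self]

theorem truncMk_eq_zero_iff (n : ℕ) (x : A) :
    truncMk A n x = 0 ↔ x ∈ maximalIdeal A ^ (n + 1) :=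
  Ideal.Quotient.eq_zero_iff_mem

instance instIsNoetherianRingTrunc [IsNoetherianRing A] (n : ℕ) : IsNoetherianRing (Trunc A n) :=
  inferInstance

theorem isArtinianRing_trunc [IsNoetherianRing A] (n : ℕ) : IsArtinianRing (Trunc A n) :=
  (isArtinianRing_iff_isNilpotent_maximalIdeal (Trunc A n)).mpr ⟨n + 1, maximalIdeal_trunc_pow A n⟩

theorem finite_trunc [IsNoetherianRing A] [Finite (ResidueField A)] (n : ℕ) :
    Finite (Trunc A n) :=
  IsLocalRing.finite_quotient_iff.mpr ⟨n + 1, le_rfl⟩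

/-- A local homomorphism to an Artinian local ring kills a power of the maximal ideal. -/
theorem exists_pow_le_ker_of_isArtinianRing {B : Type} [CommRing B] [IsLocalRing B]
    [IsArtinianRing B] (f : A →+* B) (hf : IsLocalHom f) :
    ∃ n : ℕ, maximalIdeal A ^ (n + 1) ≤ RingHom.ker f := by
  obtain ⟨n, hn⟩ := (isArtinianRing_iff_isNilpotent_maximalIdeal B).mp inferInstance
  refine ⟨n, ?_⟩
  have h1 : (maximalIdeal A).map f ≤ maximalIdeal B := by
    haveI := hf
    exact IsLocalRing.map_maximalIdeal_le f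
  have h2 : (maximalIdeal A ^ n).map f ≤ ⊥ := by
    rw [Ideal.map_pow]
    calc (maximalIdeal A).map f ^ n ≤ maximalIdeal B ^ n := Ideal.pow_right_mono h1 n
      _ = ⊥ := by rw [hn]; rfl
  intro x hx
  have hx' : x ∈ maximalIdeal A ^ n := Ideal.pow_le_pow_right (Nat.le_succ n) hx
  have := h2 (Ideal.mem_map_of_mem f hx')
  simpa using this

end quot

section alg

variable (𝒪 : Type) [CommRing 𝒪] [IsLocalRing 𝒪]
variable (A : Type) [CommRing A] [IsLocalRing A] [Algebra 𝒪 A]

theorem algebraMap_trunc (n : ℕ) :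
    algebraMap 𝒪 (Trunc A n) = (truncMk A n).comp (algebraMap 𝒪 A) := rfl

/-- The projection `A → A ⧸ m^(n+1)` as an algebra homomorphism. -/
abbrev truncMkₐ (n : ℕ) : A →ₐ[𝒪] Trunc A n := Ideal.Quotient.mkₐ 𝒪 _

theorem truncMkₐ_coe (n : ℕ) : ((truncMkₐ 𝒪 A n : A →ₐ[𝒪] Trunc A n) : A →+* Trunc A n) =
    truncMk A n := rfl

/-- The transition maps as algebra homomorphisms. -/
abbrev truncFactorₐ {k n : ℕ} (h : k ≤ n) : Trunc A n →ₐ[𝒪] Trunc A k :=
  Ideal.Quotient.factorₐ 𝒪 (Ideal.pow_le_pow_right (Nat.succ_le_succ h))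

theorem truncFactorₐ_coe {k n : ℕ} (h : k ≤ n) :
    ((truncFactorₐ 𝒪 A h : Trunc A n →ₐ[𝒪] Trunc A k) : Trunc A n →+* Trunc A k) =
      truncFactor A h := rfl

theorem isLocalHom_algebraMap_trunc (h : IsLocalHom (algebraMap 𝒪 A)) (n : ℕ) :
    IsLocalHom (algebraMap 𝒪 (Trunc A n)) := by
  rw [algebraMap_trunc]
  exact ⟨fun a ha => h.map_nonunit a ((isLocalHom_truncMk A n).map_nonunit _ ha)⟩

theorem residue_surjective_trunc
    (hsurj : Function.Surjective (IsLocalRing.residue A ∘ algebraMap 𝒪 A)) (n : ℕ) :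
    Function.Surjective (IsLocalRing.residue (Trunc A n) ∘ algebraMap 𝒪 (Trunc A n)) := by
  intro y
  obtain ⟨x, rfl⟩ := IsLocalRing.residue_surjective y
  obtain ⟨a, rfl⟩ := truncMk_surjective A n x
  obtain ⟨c, hc⟩ := hsurj (IsLocalRing.residue A a)
  refine ⟨c, ?_⟩
  simp only [Function.comp_apply] at hc ⊢
  rw [algebraMap_trunc, RingHom.comp_apply]
  have hmem : algebraMap 𝒪 A c - a ∈ maximalIdeal A := by
    rw [← IsLocalRing.residue_eq_zero_iff, map_sub, hc, sub_self]
  rw [← sub_eq_zero, ← map_sub, ← map_sub, IsLocalRing.residue_eq_zero_iff, maximalIdeal_trunc]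
  exact Ideal.mem_map_of_mem _ hmem

theorem isArtinianTestAlgebra_trunc [IsNoetherianRing A] (h : IsLocalHom (algebraMap 𝒪 A))
    (hsurj : Function.Surjective (IsLocalRing.residue A ∘ algebraMap 𝒪 A)) (n : ℕ) :
    GaloisRep.IsArtinianTestAlgebra 𝒪 (Trunc A n) :=
  { isLocalHom := isLocalHom_algebraMap_trunc 𝒪 A h n
    residue_surjective := residue_surjective_trunc 𝒪 A hsurj n
    isArtinian := isArtinianRing_trunc A n }

/-- If the residue field of `𝒪` is finite and `𝒪 → A` is surjective on residue fields,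
the residue field of `A` is finite. -/
theorem finite_residueField_of_surjective [Finite (ResidueField 𝒪)]
    (h : IsLocalHom (algebraMap 𝒪 A))
    (hsurj : Function.Surjective (IsLocalRing.residue A ∘ algebraMap 𝒪 A)) :
    Finite (ResidueField A) := by
  haveI := h
  refine Finite.of_surjective (IsLocalRing.ResidueField.map (algebraMap 𝒪 A)) ?_
  intro y
  obtain ⟨c, hc⟩ := hsurj y
  exact ⟨IsLocalRing.residue 𝒪 c, hc⟩

end alg

end Fermat.Agent.S53.Limit
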